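import Fermat.Prelude.Def_FLTPrelim_Ramification
import Fermat.Agent.S18.Mod.Defs
import Fermat.Agent.Lib.X0Branch.H997Branch
import Fermat.Agent.S18.H558.BranchT2
import Fermat.Agent.S18.H558.BranchT3
import Fermat.Agent.Lib.RR.H443.Bridge
import Fermat.Agent.Lib.RR.H864.FF1Modular

/-!
# S18 / node_mod, part G-BR (helper997): the branch fields of `Alg.GoodModel`

For the concrete objects of `Fermat/Agent/S18/Mod/Defs.lean` and EVERY admissible coordinate
(`IsCoordinate M ℓ x S`: `x = j`, `S = {0, 1728}` for `ℓ ≥ 5`; `x = t₂`, `S = {0, -64}` for `ℓ = 3`;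
`x = t₃`, `S = {0, -27}` for `ℓ = 2`), every intermediate field `E` of `ℚ̄/ℚ`:

* `S_mem`       : `∀ s ∈ S, s ∈ Rc M A E`
* `S_distinct`  : `∀ s ∈ S, ∀ t ∈ S, s ≠ t → (s - t)⁻¹ ∈ Rc M A E`
* `S_unit`      : `∀ s ∈ S, s ≠ 0 → s⁻¹ ∈ Rc M A E`
* `unramified`  : `∀ O : ValuationSubring (Om M), (∀ a ∈ Lc M, a ∈ O) → ∀ c ∈ Lc M, c ∉ S →
                    x - c ∈ O → (x - c)⁻¹ ∉ O → ∀ t ∈ O, t⁻¹ ∉ O → t * (x - c)⁻¹ ∈ O`

exactly the four fields `S_mem S_distinct S_unit unramified` of `Alg.GoodModel`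
(= `PartBr (Lc M) (Rc M A E) x S` of helper216's MOD assembly).  Main theorem: `branchFields`.
-/

set_option autoImplicit false
set_option linter.style.haveILetI false

noncomputable section

open AlgebraicCurve ModularCurve IntermediateField HahnSeries

namespace Fermat.Agent.S18.H997

open Fermat.Agent.S24 Fermat.Agent.S18 Fermat.Agent.S18.Mod

/-! ### Generic: place form ⟹ valuation-subring form -/

section Generic

variable {K F : Type*} [Field K] [Field F] [Algebra K F] [IsAlgClosed K]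

/-- If `y` has order `1` at every place where it vanishes, then `y` generates the maximal
ideal of every valuation subring of `F/K` in which it is a non-unit. -/
theorem unramified_of_ord {x₀ : F} (hx₀ : Transcendental K x₀) [FiniteDimensional K⟮x₀⟯ F]
    (y : F)
    (h : ∀ v : Place K F, 0 < v.ord y → v.ord y = 1)
    (O : ValuationSubring F) (hK : ∀ a : K, algebraMap K F a ∈ O)
    (hmem : y ∈ O) (hinv : y⁻¹ ∉ O) (t : F) (ht : t ∈ O) (htinv : t⁻¹ ∉ O) :
    t * y⁻¹ ∈ O := by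
  have hO : O ≠ ⊤ := fun h' => hinv (h' ▸ ValuationSubring.mem_top _)
  obtain ⟨v, rfl⟩ := Lib.RR.H443.exists_place_eq O hK hO hx₀
  have hy0 : y ≠ 0 := by
    rintro rfl
    rw [inv_zero] at hinv
    exact hinv (zero_mem _)
  have ht0 : t ≠ 0 := by
    rintro rfl
    rw [inv_zero] at htinv
    exact htinv (zero_mem _)
  have pos : ∀ z : F, z ∈ v.toValuationSubring → z⁻¹ ∉ v.toValuationSubring → 0 < v.ord z := by
    intro z hz hzi
    have h1 : 0 ≤ v.ord z := (FF.mem_iff_ord_nonneg v).1 hz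
    have h2 : ¬ 0 ≤ v.ord z⁻¹ := fun h' => hzi ((FF.mem_iff_ord_nonneg v).2 h')
    rw [Place.ord_inv] at h2
    omega
  have hy := pos y hmem hinv
  have hyt := pos t ht htinv
  rw [FF.mem_iff_ord_nonneg, Place.ord_mul v ht0 (inv_ne_zero hy0), Place.ord_inv, h v hy]
  omega

end Generic

/-! ### Constants -/

section Constants

variable (M : ℕ) (A : ValuationSubring Qb) (E : IntermediateField ℚ Qb)

theorem mem_Rc_of_mem {a : Qb} (hA : a ∈ A) (hE : a ∈ E) :
    algebraMap Qb (Om M) a ∈ Rc M A E :=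
  Subring.mem_map.2 ⟨a, ⟨hA, hE⟩, rfl⟩

theorem intCast_mem_Rc (n : ℤ) : ((n : Om M)) ∈ Rc M A E := by
  have h := mem_Rc_of_mem M A E (a := (n : Qb)) (intCast_mem A n) (intCast_mem E n)
  rwa [map_intCast] at h

variable {A} in
/-- an integer prime to `ℓ` is a unit of `A` -/
theorem inv_intCast_mem {ℓ : ℕ} (hA : A.LiesOverPrime ℓ) (n : ℤ)
    (hn : IsCoprime n (ℓ : ℤ)) : ((n : Qb))⁻¹ ∈ A := by
  obtain ⟨a, b, hab⟩ := hn
  have hℓ : A.valuation ((ℓ : ℕ) : Qb) < 1 := A.mem_nonunits_iff.1 hA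
  have hn1 : A.valuation (n : Qb) ≤ 1 := (A.valuation_le_one_iff _).2 (intCast_mem A n)
  have ha1 : A.valuation (a : Qb) ≤ 1 := (A.valuation_le_one_iff _).2 (intCast_mem A a)
  have hb1 : A.valuation (b : Qb) ≤ 1 := (A.valuation_le_one_iff _).2 (intCast_mem A b)
  rcases hn1.lt_or_eq with hlt | heq
  · exfalso
    have e : (1 : Qb) = (a : Qb) * n + (b : Qb) * ((ℓ : ℕ) : Qb) := by
      have := congrArg (Int.cast : ℤ → Qb) hab
      push_cast at this
      rw [this]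
    have h1 : A.valuation (1 : Qb) < 1 := by
      rw [e]
      refine lt_of_le_of_lt (A.valuation.map_add _ _) (max_lt ?_ ?_)
      · rw [map_mul]
        exact lt_of_le_of_lt (mul_le_of_le_one_left' ha1) hlt
      · rw [map_mul]
        exact lt_of_le_of_lt (mul_le_of_le_one_left' hb1) hℓ
    rw [map_one] at h1
    exact lt_irrefl _ h1
  · rw [← A.valuation_le_one_iff, map_inv₀, heq, inv_one]

variable {A} in
theorem inv_intCast_mem_Rc {ℓ : ℕ} (hA : A.LiesOverPrime ℓ) (n : ℤ)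
    (hn : IsCoprime n (ℓ : ℤ)) : ((n : Om M))⁻¹ ∈ Rc M A E := by
  have h := mem_Rc_of_mem M A E (a := ((n : Qb))⁻¹) (inv_intCast_mem hA n hn)
    (inv_mem (intCast_mem E n))
  rwa [map_inv₀, map_intCast] at h

end Constants

/-! ### The three fields on constants, for `S = {0, n}` -/

section SFields

variable (M : ℕ) {A : ValuationSubring Qb} (E : IntermediateField ℚ Qb) {ℓ : ℕ}
  (hA : A.LiesOverPrime ℓ) (n : ℤ) (hn : IsCoprime n (ℓ : ℤ))
  (S : Finset (Om M)) (hS : ∀ s, s ∈ S ↔ s = 0 ∨ s = (n : Om M))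

include hS in
theorem S_mem_of : ∀ s ∈ S, s ∈ Rc M A E := by
  intro s hs
  rcases (hS s).1 hs with rfl | rfl
  · exact zero_mem _
  · exact intCast_mem_Rc M A E n

include hA hn hS in
theorem S_unit_of : ∀ s ∈ S, s ≠ 0 → s⁻¹ ∈ Rc M A E := by
  intro s hs hs0
  rcases (hS s).1 hs with rfl | rfl
  · exact absurd rfl hs0
  · exact inv_intCast_mem_Rc M E hA n hn

include hA hn hS in
theorem S_distinct_of : ∀ s ∈ S, ∀ t ∈ S, s ≠ t → (s - t)⁻¹ ∈ Rc M A E := by
  intro s hs t ht hst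
  rcases (hS s).1 hs with rfl | rfl <;> rcases (hS t).1 ht with rfl | rfl
  · exact absurd rfl hst
  · rw [zero_sub, inv_neg]
    exact neg_mem (inv_intCast_mem_Rc M E hA n hn)
  · rw [sub_zero]
    exact inv_intCast_mem_Rc M E hA n hn
  · exact absurd rfl hst

end SFields

/-! ### The field `unramified` -/

section Unramified

variable (M : ℕ) [NeZero M]

theorem jOm_eq_jF : jOm M = jF M := by
  apply Subtype.ext
  show coeffEmb Qb (qExpand ℚ 1 jq) = coeffEmb Kbar jq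
  rw [qExpand_one_apply]

/-- the valuation-subring form of unramifiedness over `ℚ̄` for a coordinate `x` of `F_M` -/
theorem unramified_of (x : Om M) (n : ℤ) (S : Finset (Om M))
    (hS : ∀ s, s ∈ S ↔ s = 0 ∨ s = (n : Om M))
    (h : ∀ c : Kbar, c ≠ 0 → c ≠ (n : Kbar) → ∀ v : Place Kbar (FF M),
      0 < v.ord (x - algebraMap Kbar (FF M) c) → v.ord (x - algebraMap Kbar (FF M) c) = 1) :
    ∀ O : ValuationSubring (Om M), (∀ a ∈ Lc M, a ∈ O) → ∀ c ∈ Lc M, c ∉ S →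
      x - c ∈ O → (x - c)⁻¹ ∉ O → ∀ t ∈ O, t⁻¹ ∉ O → t * (x - c)⁻¹ ∈ O := by
  intro O hO c hc hcS hmem hinv t ht htinv
  obtain ⟨a, rfl⟩ := hc
  have ha0 : a ≠ 0 := by
    rintro rfl
    exact hcS ((hS _).2 (Or.inl (map_zero _)))
  have han : a ≠ (n : Kbar) := by
    rintro rfl
    exact hcS ((hS _).2 (Or.inr (map_intCast _ n)))
  haveI := Lib.X0Branch.finiteDimensional_FF M
  exact unramified_of_ord (K := Kbar) (F := FF M) (Lib.RR.H864.transcendental_jF M) _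
    (h a ha0 han) O (fun b => hO _ ⟨b, rfl⟩) hmem hinv t ht htinv

end Unramified

/-! ### Main theorem -/

/-- **G-BR**: the four branch fields of `Alg.GoodModel` for the concrete objects, for every
admissible coordinate and every intermediate field `E`. -/
theorem branchFields (M : ℕ) [NeZero M] {ℓ : ℕ} (hℓ : ℓ.Prime) (A : ValuationSubring Qb)
    (hA : A.LiesOverPrime ℓ) (x : Om M) (S : Finset (Om M)) (hx : IsCoordinate M ℓ x S)
    (E : IntermediateField ℚ Qb) :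
    (∀ s ∈ S, s ∈ Rc M A E) ∧
    (∀ s ∈ S, ∀ t ∈ S, s ≠ t → (s - t)⁻¹ ∈ Rc M A E) ∧
    (∀ s ∈ S, s ≠ 0 → s⁻¹ ∈ Rc M A E) ∧
    (∀ O : ValuationSubring (Om M), (∀ a ∈ Lc M, a ∈ O) → ∀ c ∈ Lc M, c ∉ S →
      x - c ∈ O → (x - c)⁻¹ ∉ O → ∀ t ∈ O, t⁻¹ ∉ O → t * (x - c)⁻¹ ∈ O) := by
  -- a uniform treatment: `S = {0, n}`, `n` prime to `ℓ`
  have key : ∀ n : ℤ, IsCoprime n (ℓ : ℤ) → (∀ s, s ∈ S ↔ s = 0 ∨ s = (n : Om M)) →
      (∀ c : Kbar, c ≠ 0 → c ≠ (n : Kbar) → ∀ v : Place Kbar (FF M),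
        0 < v.ord (x - algebraMap Kbar (FF M) c) → v.ord (x - algebraMap Kbar (FF M) c) = 1) →
      (∀ s ∈ S, s ∈ Rc M A E) ∧
      (∀ s ∈ S, ∀ t ∈ S, s ≠ t → (s - t)⁻¹ ∈ Rc M A E) ∧
      (∀ s ∈ S, s ≠ 0 → s⁻¹ ∈ Rc M A E) ∧
      (∀ O : ValuationSubring (Om M), (∀ a ∈ Lc M, a ∈ O) → ∀ c ∈ Lc M, c ∉ S →
        x - c ∈ O → (x - c)⁻¹ ∉ O → ∀ t ∈ O, t⁻¹ ∉ O → t * (x - c)⁻¹ ∈ O) :=
    fun n hn hS h => ⟨S_mem_of M E n S hS, S_distinct_of M E hA n hn S hS,
      S_unit_of M E hA n hn S hS, unramified_of M x n S hS h⟩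
  rcases hx with ⟨h5, rfl, hS⟩ | ⟨⟨h3, hid, hS⟩ | ⟨h2, hid, hS⟩, -⟩
  · -- `x = j`, `S = {0, 1728}`, `ℓ ≥ 5`
    have hcop : IsCoprime (1728 : ℤ) (ℓ : ℤ) := by
      have h2 : Nat.Coprime 2 ℓ := (Nat.coprime_primes Nat.prime_two hℓ).2 (by omega)
      have h3 : Nat.Coprime 3 ℓ := (Nat.coprime_primes Nat.prime_three hℓ).2 (by omega)
      have h : Nat.Coprime (2 ^ 6 * 3 ^ 3) ℓ :=
        Nat.Coprime.mul_left (Nat.Coprime.pow_left 6 h2) (Nat.Coprime.pow_left 3 h3)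
      have := Nat.isCoprime_iff_coprime.2 h
      simpa using this
    refine key 1728 hcop (fun s => by rw [hS s]; norm_num) ?_
    intro c hc0 hc1 v hv
    rw [jOm_eq_jF] at hv ⊢
    exact Lib.X0Branch.ord_sub_eq_one M c hc0 (by simpa using hc1) v hv
  · -- `x = t₂`, `S = {0, -64}`, `ℓ = 3`
    subst h3
    have hcop : IsCoprime (-64 : ℤ) ((3 : ℕ) : ℤ) := by
      rw [IsCoprime.neg_left_iff]
      have := Nat.isCoprime_iff_coprime.2 (by norm_num : Nat.Coprime 64 3)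
      simpa using this
    refine key (-64) hcop (fun s => by rw [hS s]; norm_num) ?_
    intro c hc0 hc1 v hv
    rw [jOm_eq_jF] at hid
    exact H558.ord_t2_sub_eq_one M x hid c hc0 (by simpa using hc1) v hv
  · -- `x = t₃`, `S = {0, -27}`, `ℓ = 2`
    subst h2
    have hcop : IsCoprime (-27 : ℤ) ((2 : ℕ) : ℤ) := by
      rw [IsCoprime.neg_left_iff]
      have := Nat.isCoprime_iff_coprime.2 (by norm_num : Nat.Coprime 27 2)
      simpa using this
    refine key (-27) hcop (fun s => by rw [hS s]; norm_num) ?_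
    intro c hc0 hc1 v hv
    rw [jOm_eq_jF] at hid
    exact H558.ord_t3_sub_eq_one M x hid c hc0 (by simpa using hc1) v hv

end Fermat.Agent.S18.H997
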